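import Fermat.Agent.S56.TW.GT.Defs

section MergeWrap_S56_TW_GT_BorelAux -- from S56/TW/GT/BorelAux.lean

set_option autoImplicit false

namespace Fermat.Agent.S56.GT

open Matrix

variable {k : Type} [Field k]

theorem bor_uMat_add (a b : k) : uMat (a + b) = uMat a * uMat b :=
  AddChar.map_add_eq_mul _ a b

theorem bor_uMat_zero : uMat (0 : k) = 1 := AddChar.map_zero_eq_one _

theorem bor_uMat_inv (a : k) : (uMat a)⁻¹ = uMat (-a) :=
  (AddChar.map_neg_eq_inv _ a).symm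

theorem bor_det_uMat (a : k) : Matrix.GeneralLinearGroup.det (uMat a) = 1 := by
  apply Units.ext
  simp [Matrix.GeneralLinearGroup.val_det_apply, Matrix.det_fin_two]

theorem bor_det_dMat (t : kˣ) : Matrix.GeneralLinearGroup.det (dMat t) = 1 := by
  apply Units.ext
  simp [Matrix.GeneralLinearGroup.val_det_apply, Matrix.det_fin_two]

theorem bor_dMat_inv_coe (t : kˣ) :
    (((dMat t)⁻¹ : GL (Fin 2) k) : Matrix (Fin 2) (Fin 2) k) =
      !![((t⁻¹ : kˣ) : k), 0; 0, (t : k)] := rfl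

/-- The twisted adjoint action of `uMat a`. -/
theorem bor_tad_uMat (a : k) (M : Matrix (Fin 2) (Fin 2) k) :
    tad (uMat a) M =
      !![M 0 0 + a * M 1 0, M 0 1 + a * M 1 1 - a * M 0 0 - a ^ 2 * M 1 0;
         M 1 0, M 1 1 - a * M 1 0] := by
  unfold tad
  rw [bor_det_uMat, bor_uMat_inv, Units.val_one, one_smul]
  ext i j
  fin_cases i <;> fin_cases j <;>
    simp only [Matrix.mul_apply, Fin.sum_univ_two, coe_uMat, Matrix.of_apply, Matrix.cons_val',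
      Matrix.cons_val_zero, Matrix.cons_val_one, Matrix.cons_val_fin_one, Fin.isValue,
      Fin.zero_eta, Fin.mk_one] <;> ring

/-- The twisted adjoint action of `dMat t`. -/
theorem bor_tad_dMat (t : kˣ) (M : Matrix (Fin 2) (Fin 2) k) :
    tad (dMat t) M =
      !![M 0 0, (t : k) ^ 2 * M 0 1; ((t⁻¹ : kˣ) : k) ^ 2 * M 1 0, M 1 1] := by
  unfold tad
  rw [bor_det_dMat, bor_dMat_inv_coe, Units.val_one, one_smul]
  have ht : (t : k) ≠ 0 := t.ne_zero
  have hti : ((t⁻¹ : kˣ) : k) = (t : k)⁻¹ := Units.val_inv_eq_inv_val t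
  ext i j
  fin_cases i <;> fin_cases j <;>
    simp only [Matrix.mul_apply, Fin.sum_univ_two, coe_dMat, Matrix.of_apply, Matrix.cons_val',
      Matrix.cons_val_zero, Matrix.cons_val_one, Matrix.cons_val_fin_one, Fin.isValue,
      Fin.zero_eta, Fin.mk_one, hti] <;> (try field_simp) <;> (try ring)

/-- `dMat t` normalises the unipotent group. -/
theorem bor_dMat_mul_uMat (t : kˣ) (a : k) :
    dMat t * uMat a = uMat ((t : k) ^ 2 * a) * dMat t := by
  apply Units.ext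
  have ht : (t : k) ≠ 0 := t.ne_zero
  have hti : ((t⁻¹ : kˣ) : k) = (t : k)⁻¹ := Units.val_inv_eq_inv_val t
  ext i j
  fin_cases i <;> fin_cases j <;>
    simp only [Matrix.GeneralLinearGroup.coe_mul, Matrix.mul_apply, Fin.sum_univ_two, coe_dMat,
      coe_uMat, Matrix.of_apply, Matrix.cons_val',
      Matrix.cons_val_zero, Matrix.cons_val_one, Matrix.cons_val_fin_one, Fin.isValue,
      Fin.zero_eta, Fin.mk_one, hti] <;> (try field_simp) <;> (try ring)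

/-- Entries of the inverse of an upper triangular element. -/
theorem bor_upper_inv (b : GL (Fin 2) k)
    (hb : (b : Matrix (Fin 2) (Fin 2) k) 1 0 = 0) :
    (b : Matrix (Fin 2) (Fin 2) k) 0 0 ≠ 0 ∧ (b : Matrix (Fin 2) (Fin 2) k) 1 1 ≠ 0 ∧
    ((b⁻¹ : GL (Fin 2) k) : Matrix (Fin 2) (Fin 2) k) 1 0 = 0 ∧
    ((b⁻¹ : GL (Fin 2) k) : Matrix (Fin 2) (Fin 2) k) 0 0 =
      ((b : Matrix (Fin 2) (Fin 2) k) 0 0)⁻¹ := by
  have h := b.mul_inv
  have hm : (b : Matrix (Fin 2) (Fin 2) k) * ((b⁻¹ : GL (Fin 2) k) : Matrix (Fin 2) (Fin 2) k)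
      = 1 := by
    rw [← Matrix.GeneralLinearGroup.coe_mul, mul_inv_cancel]; rfl
  have h10 := congrFun (congrFun hm 1) 0
  have h11 := congrFun (congrFun hm 1) 1
  have h00 := congrFun (congrFun hm 0) 0
  simp only [Matrix.mul_apply, Fin.sum_univ_two, hb, zero_mul, zero_add, Matrix.one_apply_eq,
    Matrix.one_apply_ne (show (1 : Fin 2) ≠ 0 by decide)] at h10 h11 h00
  have hβ : (b : Matrix (Fin 2) (Fin 2) k) 1 1 ≠ 0 := by
    intro h0
    rw [h0, zero_mul] at h11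
    exact zero_ne_one h11
  have hc10 : ((b⁻¹ : GL (Fin 2) k) : Matrix (Fin 2) (Fin 2) k) 1 0 = 0 :=
    (mul_eq_zero.mp h10).resolve_left hβ
  rw [hc10, mul_zero, add_zero] at h00
  have hα : (b : Matrix (Fin 2) (Fin 2) k) 0 0 ≠ 0 := by
    intro h0
    rw [h0, zero_mul] at h00
    exact zero_ne_one h00
  exact ⟨hα, hβ, hc10, eq_inv_of_mul_eq_one_right h00⟩

theorem bor_det_upper (b : GL (Fin 2) k)
    (hb : (b : Matrix (Fin 2) (Fin 2) k) 1 0 = 0) :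
    ((Matrix.GeneralLinearGroup.det b : kˣ) : k) =
      (b : Matrix (Fin 2) (Fin 2) k) 0 0 * (b : Matrix (Fin 2) (Fin 2) k) 1 1 := by
  rw [Matrix.GeneralLinearGroup.val_det_apply, Matrix.det_fin_two, hb, mul_zero, sub_zero]

/-- The lower left entry of the twisted adjoint action of an upper triangular element. -/
theorem bor_tad_upper (b : GL (Fin 2) k)
    (hb : (b : Matrix (Fin 2) (Fin 2) k) 1 0 = 0) (M : Matrix (Fin 2) (Fin 2) k) :
    (tad b M) 1 0 = (b : Matrix (Fin 2) (Fin 2) k) 1 1 ^ 2 * M 1 0 := by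
  obtain ⟨hα, hβ, hc10, hc00⟩ := bor_upper_inv b hb
  unfold tad
  rw [bor_det_upper b hb]
  simp only [Matrix.smul_apply, Matrix.mul_apply, Fin.sum_univ_two, hb, hc10, hc00, smul_eq_mul,
    zero_mul, zero_add, mul_zero, add_zero]
  field_simp

/-- Upper triangular elements normalise the unipotent group. -/
theorem bor_upper_mul_uMat (b : GL (Fin 2) k)
    (hb : (b : Matrix (Fin 2) (Fin 2) k) 1 0 = 0) (a : k) :
    b * uMat a = uMat ((b : Matrix (Fin 2) (Fin 2) k) 0 0 / (b : Matrix (Fin 2) (Fin 2) k) 1 1 * a)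
      * b := by
  obtain ⟨hα, hβ, -, -⟩ := bor_upper_inv b hb
  apply Units.ext
  ext i j
  fin_cases i <;> fin_cases j <;>
    simp only [Matrix.GeneralLinearGroup.coe_mul, Matrix.mul_apply, Fin.sum_univ_two,
      coe_uMat, Matrix.of_apply, Matrix.cons_val',
      Matrix.cons_val_zero, Matrix.cons_val_one, Matrix.cons_val_fin_one, Fin.isValue,
      Fin.zero_eta, Fin.mk_one, hb] <;> (try field_simp) <;> (try ring)

/-- `tad` of the identity. -/
theorem bor_tad_one (M : Matrix (Fin 2) (Fin 2) k) : tad (1 : GL (Fin 2) k) M = M := by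
  unfold tad
  simp

theorem bor_cocycle_one {Γ : Subgroup (GL (Fin 2) k)}
    {ψ : GL (Fin 2) k → Matrix (Fin 2) (Fin 2) k} (hψ : IsTCocycle Γ ψ) : ψ 1 = 0 := by
  have h := hψ.map_mul 1 Γ.one_mem 1 Γ.one_mem
  rw [mul_one, bor_tad_one] at h
  have : ψ 1 + ψ 1 = ψ 1 + 0 := by rw [add_zero]; exact h.symm
  exact add_left_cancel this

/-- The conjugation formula: if `b u = u' b` then `ψ u' = ψ b + tad b (ψ u) - tad u' (ψ b)`. -/
theorem bor_cocycle_conj {Γ : Subgroup (GL (Fin 2) k)}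
    {ψ : GL (Fin 2) k → Matrix (Fin 2) (Fin 2) k} (hψ : IsTCocycle Γ ψ)
    {b u u' : GL (Fin 2) k} (hb : b ∈ Γ) (hu : u ∈ Γ) (hu' : u' ∈ Γ) (h : b * u = u' * b) :
    ψ u' = ψ b + tad b (ψ u) - tad u' (ψ b) := by
  have h1 := hψ.map_mul b hb u hu
  have h2 := hψ.map_mul u' hu' b hb
  rw [h] at h1
  rw [h1] at h2
  rw [h2]
  abel

end Fermat.Agent.S56.GT
end MergeWrap_S56_TW_GT_BorelAux

section MergeWrap_S56_TW_GT_BorelCore -- from S56/TW/GT/BorelCore.lean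

set_option autoImplicit false

namespace Fermat.Agent.S56.GT

open Matrix

variable {k : Type} [Field k]

/-- Upper right entry of `ψ (uMat a)`. -/
def borX (ψ : GL (Fin 2) k → Matrix (Fin 2) (Fin 2) k) (a : k) : k := ψ (uMat a) 0 1

/-- Upper left entry of `ψ (uMat a)`. -/
def borY (ψ : GL (Fin 2) k → Matrix (Fin 2) (Fin 2) k) (a : k) : k := ψ (uMat a) 0 0

/-- Lower left entry of `ψ (uMat a)`. -/
def borZ (ψ : GL (Fin 2) k → Matrix (Fin 2) (Fin 2) k) (a : k) : k := ψ (uMat a) 1 0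

section Rel

variable {Γ : Subgroup (GL (Fin 2) k)} {A : AddSubgroup k}
  {ψ : GL (Fin 2) k → Matrix (Fin 2) (Fin 2) k}

theorem bor_trace (hψ : IsTCocycle Γ ψ) (hmem : ∀ a : k, uMat a ∈ Γ ↔ a ∈ A) {a : k}
    (ha : a ∈ A) : ψ (uMat a) 1 1 = - borY ψ a := by
  have h := hψ.trace_zero (uMat a) ((hmem a).mpr ha)
  rw [Matrix.trace_fin_two] at h
  unfold borY
  linear_combination h

theorem bor_trace' (hψ : IsTCocycle Γ ψ) {g : GL (Fin 2) k} (hg : g ∈ Γ) :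
    ψ g 1 1 = - ψ g 0 0 := by
  have h := hψ.trace_zero g hg
  rw [Matrix.trace_fin_two] at h
  linear_combination h

/-- The cocycle relations on the unipotent subgroup, in coordinates. -/
theorem bor_rel (hψ : IsTCocycle Γ ψ) (hmem : ∀ a : k, uMat a ∈ Γ ↔ a ∈ A) {a b : k}
    (ha : a ∈ A) (hb : b ∈ A) :
    borZ ψ (a + b) = borZ ψ a + borZ ψ b ∧
    borY ψ (a + b) = borY ψ a + borY ψ b + a * borZ ψ b ∧
    borX ψ (a + b) = borX ψ a + borX ψ b - 2 * a * borY ψ b - a ^ 2 * borZ ψ b := by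
  have h := hψ.map_mul (uMat a) ((hmem a).mpr ha) (uMat b) ((hmem b).mpr hb)
  rw [← bor_uMat_add, bor_tad_uMat] at h
  have h10 := congrFun (congrFun h 1) 0
  have h00 := congrFun (congrFun h 0) 0
  have h01 := congrFun (congrFun h 0) 1
  simp only [Matrix.add_apply, Matrix.of_apply, Matrix.cons_val', Matrix.cons_val_zero,
    Matrix.cons_val_one, Matrix.cons_val_fin_one, Fin.isValue] at h10 h00 h01
  rw [bor_trace hψ hmem hb] at h01
  unfold borX borY borZ at *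
  refine ⟨?_, ?_, ?_⟩
  · rw [h10]
  · rw [h00]; ring
  · rw [h01]; ring

theorem borX_zero (hψ : IsTCocycle Γ ψ) : borX ψ 0 = 0 := by
  unfold borX
  rw [bor_uMat_zero, bor_cocycle_one hψ]
  rfl

/-- Step 1: `z a = a z 1`. -/
theorem borZ_eq (hψ : IsTCocycle Γ ψ) (hmem : ∀ a : k, uMat a ∈ Γ ↔ a ∈ A) (h1 : (1 : k) ∈ A)
    {a : k} (ha : a ∈ A) : borZ ψ a = a * borZ ψ 1 := by
  have e1 := (bor_rel hψ hmem ha h1).2.1
  have e2 := (bor_rel hψ hmem h1 ha).2.1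
  rw [add_comm 1 a] at e2
  linear_combination e1 - e2

/-- Step 3: if `z = 0` on `A` then `y a = a y 1` (`2 ≠ 0`). -/
theorem borY_eq (hψ : IsTCocycle Γ ψ) (hmem : ∀ a : k, uMat a ∈ Γ ↔ a ∈ A) (h1 : (1 : k) ∈ A)
    (h2 : (2 : k) ≠ 0) (hz : borZ ψ 1 = 0) {a : k} (ha : a ∈ A) :
    borY ψ a = a * borY ψ 1 := by
  have e1 := (bor_rel hψ hmem ha h1).2.2
  have e2 := (bor_rel hψ hmem h1 ha).2.2
  rw [add_comm 1 a] at e2
  have hza := borZ_eq hψ hmem h1 ha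
  rw [hz, mul_zero] at hza
  rw [hz] at e1
  rw [hza] at e2
  have : 2 * (borY ψ a - a * borY ψ 1) = 0 := by linear_combination e2 - e1
  have := (mul_eq_zero.mp this).resolve_left h2
  linear_combination this

/-- The function `D a = x a + a² d - a (x 1 + d)`, `d = y 1`. -/
def borD (ψ : GL (Fin 2) k → Matrix (Fin 2) (Fin 2) k) (a : k) : k :=
  borX ψ a + a ^ 2 * borY ψ 1 - a * (borX ψ 1 + borY ψ 1)

theorem borD_one : borD ψ 1 = 0 := by
  unfold borD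
  ring

theorem borD_zero (hψ : IsTCocycle Γ ψ) : borD ψ 0 = 0 := by
  unfold borD
  rw [borX_zero hψ]
  ring

theorem borD_add (hψ : IsTCocycle Γ ψ) (hmem : ∀ a : k, uMat a ∈ Γ ↔ a ∈ A) (h1 : (1 : k) ∈ A)
    (h2 : (2 : k) ≠ 0) (hz : borZ ψ 1 = 0) {a b : k} (ha : a ∈ A) (hb : b ∈ A) :
    borD ψ (a + b) = borD ψ a + borD ψ b := by
  have e1 := (bor_rel hψ hmem ha hb).2.2
  have hzb := borZ_eq hψ hmem h1 hb
  rw [hz, mul_zero] at hzb
  have hyb := borY_eq hψ hmem h1 h2 hz hb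
  rw [hzb, hyb] at e1
  unfold borD
  linear_combination e1

/-- `D` as an additive map on `A`. -/
def borDHom (hψ : IsTCocycle Γ ψ) (hmem : ∀ a : k, uMat a ∈ Γ ↔ a ∈ A) (h1 : (1 : k) ∈ A)
    (h2 : (2 : k) ≠ 0) (hz : borZ ψ 1 = 0) : A →+ k where
  toFun a := borD ψ (a : k)
  map_zero' := borD_zero hψ
  map_add' a b := borD_add hψ hmem h1 h2 hz a.2 b.2

/-- The final step: if `z 1 = 0` and `D = 0` on `A`, then `ψ` is a coboundary on the unipotent
subgroup. -/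
theorem bor_final (hψ : IsTCocycle Γ ψ) (hmem : ∀ a : k, uMat a ∈ Γ ↔ a ∈ A) (h1 : (1 : k) ∈ A)
    (h2 : (2 : k) ≠ 0) (hz : borZ ψ 1 = 0) (hD : ∀ a ∈ A, borD ψ a = 0) :
    ∃ X : Matrix (Fin 2) (Fin 2) k, X.trace = 0 ∧ ∀ a ∈ A, ψ (uMat a) = tad (uMat a) X - X := by
  refine ⟨!![-(ψ (uMat 1) 0 1 + ψ (uMat 1) 0 0) / 2, 0; ψ (uMat 1) 0 0,
    -(-(ψ (uMat 1) 0 1 + ψ (uMat 1) 0 0) / 2)], ?_, ?_⟩
  · rw [Matrix.trace_fin_two]
    simp
  · intro a ha
    rw [bor_tad_uMat]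
    have hza := borZ_eq hψ hmem h1 ha
    rw [hz, mul_zero] at hza
    have hya := borY_eq hψ hmem h1 h2 hz ha
    have hDa := hD a ha
    have htr := bor_trace hψ hmem ha
    unfold borD at hDa
    unfold borX borY borZ at *
    ext i j
    fin_cases i <;> fin_cases j <;>
      simp only [Matrix.sub_apply, Matrix.of_apply, Matrix.cons_val', Matrix.cons_val_zero,
        Matrix.cons_val_one, Matrix.cons_val_fin_one, Fin.isValue, Fin.zero_eta, Fin.mk_one]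
    · rw [hya]; ring
    · field_simp
      linear_combination 2 * hDa
    · rw [hza]; ring
    · rw [htr, hya]; ring

end Rel

end Fermat.Agent.S56.GT
end MergeWrap_S56_TW_GT_BorelCore

section MergeWrap_S56_TW_GT_BorelStep2 -- from S56/TW/GT/BorelStep2.lean

set_option autoImplicit false

namespace Fermat.Agent.S56.GT

open Matrix

variable {k : Type} [Field k]

section Step2

variable {Γ : Subgroup (GL (Fin 2) k)} {A : AddSubgroup k}
  {ψ : GL (Fin 2) k → Matrix (Fin 2) (Fin 2) k}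

/-- Step 2 in characteristic `3`. -/
theorem borZ_one_of_three (hψ : IsTCocycle Γ ψ) (hmem : ∀ a : k, uMat a ∈ Γ ↔ a ∈ A)
    (h1 : (1 : k) ∈ A) (h3 : (3 : k) = 0) : borZ ψ 1 = 0 := by
  have h11 : (1 + 1 : k) ∈ A := A.add_mem h1 h1
  obtain ⟨-, eY, eX⟩ := bor_rel hψ hmem h1 h1
  obtain ⟨-, -, eX3⟩ := bor_rel hψ hmem h11 h1
  have h111 : (1 + 1 + 1 : k) = 0 := by linear_combination h3
  rw [h111, borX_zero hψ, eX] at eX3
  linear_combination (-borX ψ 1 + 2 * borY ψ 1 + 2 * borZ ψ 1) * h3 - eX3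

/-- The `z`-component of the conjugation formula for a diagonal element. -/
theorem borZ_dMat (hψ : IsTCocycle Γ ψ) (hmem : ∀ a : k, uMat a ∈ Γ ↔ a ∈ A)
    (t : kˣ) (ht : dMat t ∈ Γ) {a : k} (ha : a ∈ A) (hta : (t : k) ^ 2 * a ∈ A) :
    borZ ψ ((t : k) ^ 2 * a) = ((t⁻¹ : kˣ) : k) ^ 2 * borZ ψ a := by
  have h := bor_cocycle_conj hψ ht ((hmem a).mpr ha) ((hmem _).mpr hta) (bor_dMat_mul_uMat t a)
  rw [bor_tad_dMat, bor_tad_uMat] at h
  have h10 := congrFun (congrFun h 1) 0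
  simp only [Matrix.add_apply, Matrix.sub_apply, Matrix.of_apply, Matrix.cons_val',
    Matrix.cons_val_zero, Matrix.cons_val_one, Matrix.cons_val_fin_one, Fin.isValue] at h10
  unfold borZ
  rw [h10]
  ring

/-- The `z`-component of the conjugation formula for an upper triangular element. -/
theorem borZ_upper (hψ : IsTCocycle Γ ψ) (hmem : ∀ a : k, uMat a ∈ Γ ↔ a ∈ A)
    (b : GL (Fin 2) k) (hbΓ : b ∈ Γ) (hb : (b : Matrix (Fin 2) (Fin 2) k) 1 0 = 0)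
    {a : k} (ha : a ∈ A) :
    (b : Matrix (Fin 2) (Fin 2) k) 0 0 / (b : Matrix (Fin 2) (Fin 2) k) 1 1 * a ∈ A ∧
    borZ ψ ((b : Matrix (Fin 2) (Fin 2) k) 0 0 / (b : Matrix (Fin 2) (Fin 2) k) 1 1 * a) =
      (b : Matrix (Fin 2) (Fin 2) k) 1 1 ^ 2 * borZ ψ a := by
  have hconj := bor_upper_mul_uMat b hb a
  have hu : uMat a ∈ Γ := (hmem a).mpr ha
  have hu' : uMat ((b : Matrix (Fin 2) (Fin 2) k) 0 0 / (b : Matrix (Fin 2) (Fin 2) k) 1 1 * a)
      ∈ Γ := by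
    have : uMat ((b : Matrix (Fin 2) (Fin 2) k) 0 0 / (b : Matrix (Fin 2) (Fin 2) k) 1 1 * a)
        = b * uMat a * b⁻¹ := by
      rw [hconj, mul_inv_cancel_right]
    rw [this]
    exact Γ.mul_mem (Γ.mul_mem hbΓ hu) (Γ.inv_mem hbΓ)
  refine ⟨(hmem _).mp hu', ?_⟩
  have h := bor_cocycle_conj hψ hbΓ hu hu' hconj
  rw [bor_tad_uMat] at h
  have h10 := congrFun (congrFun h 1) 0
  simp only [Matrix.add_apply, Matrix.sub_apply, Matrix.of_apply, Matrix.cons_val',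
    Matrix.cons_val_zero, Matrix.cons_val_one, Matrix.cons_val_fin_one, Fin.isValue] at h10
  rw [bor_tad_upper b hb] at h10
  unfold borZ
  rw [h10]
  ring

/-- Step 2 when `A` contains an element `t ≠ 0` with `t ^ 4 ≠ 1` and the torus lies in `Γ`. -/
theorem borZ_one_of_torus (hψ : IsTCocycle Γ ψ) (hmem : ∀ a : k, uMat a ∈ Γ ↔ a ∈ A)
    (h1 : (1 : k) ∈ A) (hmul : ∀ a ∈ A, ∀ b ∈ A, a * b ∈ A)
    (htor : ∀ t : kˣ, (t : k) ∈ A → dMat t ∈ Γ)
    {t : k} (htA : t ∈ A) (ht0 : t ≠ 0) (ht4 : t ^ 4 ≠ 1) : borZ ψ 1 = 0 := by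
  have htt : t ^ 2 * 1 ∈ A := by
    rw [mul_one, pow_two]
    exact hmul t htA t htA
  have e1 := borZ_dMat hψ hmem (Units.mk0 t ht0) (htor _ (by simpa using htA)) h1
    (by simpa using htt)
  have e2 := borZ_eq hψ hmem h1 htt
  rw [Units.val_inv_eq_inv_val, Units.val_mk0] at e1
  rw [e2] at e1
  have e3 : (t ^ 4 - 1) * borZ ψ 1 = 0 := by
    have : t ^ 2 * (t ^ 2 * 1 * borZ ψ 1) = t ^ 2 * (t⁻¹ ^ 2 * borZ ψ 1) := by rw [e1]
    have hinv : t ^ 2 * t⁻¹ ^ 2 = 1 := by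
      rw [← mul_pow, mul_inv_cancel₀ ht0, one_pow]
    linear_combination this + borZ ψ 1 * hinv
  rcases mul_eq_zero.mp e3 with h | h
  · exact absurd (sub_eq_zero.mp h) ht4
  · exact h

/-- Step 2 when all nonzero elements of `A` have fourth power `1`. -/
theorem borZ_one_of_det (hψ : IsTCocycle Γ ψ) (hmem : ∀ a : k, uMat a ∈ Γ ↔ a ∈ A)
    (h1 : (1 : k) ∈ A)
    (hup : ∀ g ∈ Γ, ∃ h ∈ Γ, Matrix.GeneralLinearGroup.det h = 1 ∧
        ((h * g : GL (Fin 2) k) : Matrix (Fin 2) (Fin 2) k) 1 0 = 0)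
    (h4 : ∀ t ∈ A, t ≠ 0 → t ^ 4 = 1)
    (hdet : ∃ g ∈ Γ, ((Matrix.GeneralLinearGroup.det g : kˣ) : k) ^ 2 ≠ 1) :
    borZ ψ 1 = 0 := by
  obtain ⟨g, hg, hgdet⟩ := hdet
  obtain ⟨h, hh, hhdet, hb⟩ := hup g hg
  by_contra hz
  apply hgdet
  have hbΓ : h * g ∈ Γ := Γ.mul_mem hh hg
  obtain ⟨hα, hβ, -, -⟩ := bor_upper_inv (h * g) hb
  obtain ⟨hχA, e1⟩ := borZ_upper hψ hmem (h * g) hbΓ hb h1
  have e2 := borZ_eq hψ hmem h1 hχA
  rw [e2] at e1
  have hχ : ((h * g : GL (Fin 2) k) : Matrix (Fin 2) (Fin 2) k) 0 0 /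
      ((h * g : GL (Fin 2) k) : Matrix (Fin 2) (Fin 2) k) 1 1 * 1 =
      ((h * g : GL (Fin 2) k) : Matrix (Fin 2) (Fin 2) k) 1 1 ^ 2 :=
    mul_right_cancel₀ hz e1
  have hχ0 : ((h * g : GL (Fin 2) k) : Matrix (Fin 2) (Fin 2) k) 0 0 /
      ((h * g : GL (Fin 2) k) : Matrix (Fin 2) (Fin 2) k) 1 1 * 1 ≠ 0 := by
    rw [mul_one]
    exact div_ne_zero hα hβ
  have hχ4 := h4 _ hχA hχ0
  have hdetb : ((Matrix.GeneralLinearGroup.det (h * g) : kˣ) : k) =
      ((Matrix.GeneralLinearGroup.det g : kˣ) : k) := by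
    rw [map_mul, hhdet, one_mul]
  rw [← hdetb, bor_det_upper (h * g) hb]
  have hαβ : ((h * g : GL (Fin 2) k) : Matrix (Fin 2) (Fin 2) k) 0 0 =
      ((h * g : GL (Fin 2) k) : Matrix (Fin 2) (Fin 2) k) 1 1 ^ 2 *
        ((h * g : GL (Fin 2) k) : Matrix (Fin 2) (Fin 2) k) 1 1 := by
    rw [← hχ, mul_one, div_mul_cancel₀ _ hβ]
  rw [hχ] at hχ4
  rw [hαβ]
  linear_combination hχ4

/-- If `Nat.card A = 3` then `(3 : k) = 0`. -/
theorem bor_three_eq_zero (h1 : (1 : k) ∈ A) (h3 : Nat.card A = 3) : (3 : k) = 0 := by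
  have h : (Nat.card A) • (⟨1, h1⟩ : A) = 0 := card_nsmul_eq_zero'
  rw [h3] at h
  have h' := congrArg (Subtype.val) h
  simpa using h'

end Step2

end Fermat.Agent.S56.GT
end MergeWrap_S56_TW_GT_BorelStep2

section MergeWrap_S56_TW_GT_BorelStep4 -- from S56/TW/GT/BorelStep4.lean

set_option autoImplicit false

namespace Fermat.Agent.S56.GT

open Matrix

variable {k : Type} [Field k]

section Step4

variable {Γ : Subgroup (GL (Fin 2) k)} {A : AddSubgroup k}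
  {ψ : GL (Fin 2) k → Matrix (Fin 2) (Fin 2) k}

/-- Step 4 when `A` has three elements. -/
theorem borD_eq_zero_of_card (hψ : IsTCocycle Γ ψ) (hmem : ∀ a : k, uMat a ∈ Γ ↔ a ∈ A)
    (h1 : (1 : k) ∈ A) (h2 : (2 : k) ≠ 0) (hz : borZ ψ 1 = 0) (h3 : Nat.card A = 3)
    {a : k} (ha : a ∈ A) : borD ψ a = 0 := by
  have : Fact (Nat.Prime 3) := ⟨Nat.prime_three⟩
  have hne : (⟨1, h1⟩ : A) ≠ 0 := by
    intro h
    exact one_ne_zero (congrArg Subtype.val h)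
  have hmem' : (⟨a, ha⟩ : A) ∈ AddSubgroup.zmultiples (⟨1, h1⟩ : A) :=
    mem_zmultiples_of_prime_card h3 hne
  obtain ⟨n, hn⟩ := AddSubgroup.mem_zmultiples_iff.mp hmem'
  have h := congrArg (borDHom hψ hmem h1 h2 hz) hn
  rw [map_zsmul] at h
  have e1 : borDHom hψ hmem h1 h2 hz ⟨1, h1⟩ = 0 := borD_one
  rw [e1, smul_zero] at h
  exact h.symm

/-- The `y`- and `x`-components of the conjugation formula for a diagonal element. -/
theorem borD_dMat (hψ : IsTCocycle Γ ψ) (hmem : ∀ a : k, uMat a ∈ Γ ↔ a ∈ A)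
    (h1 : (1 : k) ∈ A) (h2 : (2 : k) ≠ 0) (hz : borZ ψ 1 = 0)
    (t : kˣ) (ht : dMat t ∈ Γ) (ht1 : (t : k) ^ 2 ∈ A) {a : k} (ha : a ∈ A)
    (hta : (t : k) ^ 2 * a ∈ A) :
    borD ψ ((t : k) ^ 2 * a) = (t : k) ^ 2 * borD ψ a + a * borD ψ ((t : k) ^ 2) := by
  have key : ∀ c ∈ A, (t : k) ^ 2 * c ∈ A →
      borY ψ ((t : k) ^ 2 * c) = borY ψ c - (t : k) ^ 2 * c * ψ (dMat t) 1 0 ∧
      borX ψ ((t : k) ^ 2 * c) = (t : k) ^ 2 * borX ψ c + 2 * ((t : k) ^ 2 * c) * ψ (dMat t) 0 0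
        + ((t : k) ^ 2 * c) ^ 2 * ψ (dMat t) 1 0 := by
    intro c hc htc
    have h := bor_cocycle_conj hψ ht ((hmem c).mpr hc) ((hmem _).mpr htc) (bor_dMat_mul_uMat t c)
    rw [bor_tad_dMat, bor_tad_uMat] at h
    have h00 := congrFun (congrFun h 0) 0
    have h01 := congrFun (congrFun h 0) 1
    simp only [Matrix.add_apply, Matrix.sub_apply, Matrix.of_apply, Matrix.cons_val',
      Matrix.cons_val_zero, Matrix.cons_val_one, Matrix.cons_val_fin_one, Fin.isValue] at h00 h01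
    rw [bor_trace' hψ ht] at h01
    unfold borX borY
    constructor
    · rw [h00]; ring
    · rw [h01]; ring
  have ht1' : (t : k) ^ 2 * 1 ∈ A := by rwa [mul_one]
  obtain ⟨kY1, kX1⟩ := key 1 h1 ht1'
  obtain ⟨-, kXa⟩ := key a ha hta
  rw [mul_one] at kY1 kX1
  have hy := borY_eq hψ hmem h1 h2 hz ht1
  rw [hy] at kY1
  unfold borD
  rw [kXa, kX1]
  linear_combination (a ^ 2 * (t : k) ^ 2 - a * (t : k) ^ 2) * kY1

/-- Closure of `A` under powers. -/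
theorem bor_pow_mem (h1 : (1 : k) ∈ A) (hmul : ∀ a ∈ A, ∀ b ∈ A, a * b ∈ A) {b : k}
    (hb : b ∈ A) (n : ℕ) : b ^ n ∈ A := by
  induction n with
  | zero => simpa using h1
  | succ n ih => rw [pow_succ]; exact hmul _ ih _ hb

/-- `borD` is a derivation of `A`. -/
theorem borD_mul (hψ : IsTCocycle Γ ψ) (hmem : ∀ a : k, uMat a ∈ Γ ↔ a ∈ A)
    (h1 : (1 : k) ∈ A) (h2 : (2 : k) ≠ 0) (hz : borZ ψ 1 = 0)
    (hmul : ∀ a ∈ A, ∀ b ∈ A, a * b ∈ A) (htor : ∀ t : kˣ, (t : k) ∈ A → dMat t ∈ Γ)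
    {s a : k} (hs : s ∈ A) (ha : a ∈ A) :
    borD ψ (s * a) = s * borD ψ a + a * borD ψ s := by
  -- the squares
  have hsq : ∀ t ∈ A, ∀ c ∈ A, borD ψ (t ^ 2 * c) = t ^ 2 * borD ψ c + c * borD ψ (t ^ 2) := by
    intro t ht c hc
    by_cases ht0 : t = 0
    · subst ht0
      simp [borD_zero hψ]
    · have htt : t ^ 2 ∈ A := bor_pow_mem h1 hmul ht 2
      have := borD_dMat hψ hmem h1 h2 hz (Units.mk0 t ht0) (htor _ (by simpa using ht))
        (by simpa using htt) hc (by simpa using hmul _ htt _ hc)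
      simpa using this
  have hadd := fun {x y : k} (hx : x ∈ A) (hy : y ∈ A) => borD_add hψ hmem h1 h2 hz hx hy
  have hs1 : s + 1 ∈ A := A.add_mem hs h1
  have hs1' : s - 1 ∈ A := A.sub_mem hs h1
  have hsa : s * a ∈ A := hmul _ hs _ ha
  have hp2 : (s + 1) ^ 2 ∈ A := bor_pow_mem h1 hmul hs1 2
  have hm2 : (s - 1) ^ 2 ∈ A := bor_pow_mem h1 hmul hs1' 2
  -- `(s+1)² a = (s-1)² a + 4 s a`
  have e1 := hsq _ hs1 a ha
  have e2 := hsq _ hs1' a ha
  have e3 : borD ψ ((s + 1) ^ 2 * a) =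
      borD ψ ((s - 1) ^ 2 * a) + (borD ψ (s * a) + borD ψ (s * a) +
        (borD ψ (s * a) + borD ψ (s * a))) := by
    rw [← hadd hsa hsa, ← hadd (A.add_mem hsa hsa) (A.add_mem hsa hsa),
      ← hadd (hmul _ hm2 _ ha) (A.add_mem (A.add_mem hsa hsa) (A.add_mem hsa hsa))]
    congr 1
    ring
  have e4 : borD ψ ((s + 1) ^ 2) =
      borD ψ ((s - 1) ^ 2) + (borD ψ s + borD ψ s + (borD ψ s + borD ψ s)) := by
    rw [← hadd hs hs, ← hadd (A.add_mem hs hs) (A.add_mem hs hs),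
      ← hadd hm2 (A.add_mem (A.add_mem hs hs) (A.add_mem hs hs))]
    congr 1
    ring
  have h4 : (4 : k) ≠ 0 := by
    have : (4 : k) = 2 * 2 := by norm_num
    rw [this]
    exact mul_ne_zero h2 h2
  have e5 : 4 * (borD ψ (s * a) - (s * borD ψ a + a * borD ψ s)) = 0 := by
    linear_combination -e3 + e1 - e2 + a * e4
  have := (mul_eq_zero.mp e5).resolve_left h4
  linear_combination this

/-- The power rule for `borD`. -/
theorem borD_pow (hψ : IsTCocycle Γ ψ) (hmem : ∀ a : k, uMat a ∈ Γ ↔ a ∈ A)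
    (h1 : (1 : k) ∈ A) (h2 : (2 : k) ≠ 0) (hz : borZ ψ 1 = 0)
    (hmul : ∀ a ∈ A, ∀ b ∈ A, a * b ∈ A) (htor : ∀ t : kˣ, (t : k) ∈ A → dMat t ∈ Γ)
    {b : k} (hb : b ∈ A) (n : ℕ) :
    borD ψ (b ^ (n + 1)) = ((n + 1 : ℕ) : k) * b ^ n * borD ψ b := by
  induction n with
  | zero => simp
  | succ n ih =>
    rw [pow_succ, borD_mul hψ hmem h1 h2 hz hmul htor (bor_pow_mem h1 hmul hb (n + 1)) hb, ih]
    push_cast
    ring

/-- Step 4 when `A` is a subfield and the torus lies in `Γ`. -/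
theorem borD_eq_zero_of_torus [Finite k] (p : ℕ) [Fact p.Prime] [CharP k p]
    (hψ : IsTCocycle Γ ψ) (hmem : ∀ a : k, uMat a ∈ Γ ↔ a ∈ A)
    (h1 : (1 : k) ∈ A) (h2 : (2 : k) ≠ 0) (hz : borZ ψ 1 = 0)
    (hmul : ∀ a ∈ A, ∀ b ∈ A, a * b ∈ A) (htor : ∀ t : kˣ, (t : k) ∈ A → dMat t ∈ Γ)
    {a : k} (ha : a ∈ A) : borD ψ a = 0 := by
  have hinj : Function.Injective (fun b : A => (⟨(b : k) ^ p, bor_pow_mem h1 hmul b.2 p⟩ : A)) := by
    intro b c hbc
    have h := congrArg Subtype.val hbc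
    exact Subtype.ext (frobenius_inj k p h)
  have hsurj := Finite.injective_iff_surjective.mp hinj
  obtain ⟨b, hb⟩ := hsurj ⟨a, ha⟩
  have hb' : (b : k) ^ p = a := congrArg Subtype.val hb
  have hp : p = (p - 1) + 1 := (Nat.succ_pred_eq_of_pos (Fact.out : p.Prime).pos).symm
  rw [← hb', hp, borD_pow hψ hmem h1 h2 hz hmul htor b.2 (p - 1), ← hp, CharP.cast_eq_zero k p,
    zero_mul, zero_mul]

end Step4

end Fermat.Agent.S56.GT
end MergeWrap_S56_TW_GT_BorelStep4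

section MergeWrap_S56_TW_GT_Borel -- from S56/TW/GT/Borel.lean

set_option autoImplicit false

namespace Fermat.Agent.S56.GT

variable {k : Type} [Field k]

theorem isTCob_unip_of_borelData [Finite k] (p : ℕ) [Fact p.Prime] [CharP k p] (hp2 : p ≠ 2)
    (Γ : Subgroup (GL (Fin 2) k)) (A : AddSubgroup k) (hB : BorelData p Γ A)
    (hdet : p ≠ 3 → ∃ g ∈ Γ, ((Matrix.GeneralLinearGroup.det g : kˣ) : k) ^ 2 ≠ 1)
    (ψ : GL (Fin 2) k → Matrix (Fin 2) (Fin 2) k) (hψ : IsTCocycle Γ ψ) :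
    ∃ X : Matrix (Fin 2) (Fin 2) k, X.trace = 0 ∧ ∀ a ∈ A, ψ (uMat a) = tad (uMat a) X - X := by
  have hmem := hB.mem_iff
  have h1 := hB.one_mem
  have h2 : (2 : k) ≠ 0 := by
    intro h
    have h' : ((2 : ℕ) : k) = 0 := by exact_mod_cast h
    have hd := (CharP.cast_eq_zero_iff k p 2).mp h'
    exact hp2 ((Nat.prime_dvd_prime_iff_eq Fact.out Nat.prime_two).mp hd)
  have hz : borZ ψ 1 = 0 := by
    by_cases hp3 : p = 3
    · have h3 : (3 : k) = 0 := by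
        have := CharP.cast_eq_zero k p
        rw [hp3] at this
        exact_mod_cast this
      exact borZ_one_of_three hψ hmem h1 h3
    · rcases hB.cases with hc | ⟨hmul, htor, hup⟩
      · exfalso
        have h3 := bor_three_eq_zero h1 hc
        have h' : ((3 : ℕ) : k) = 0 := by exact_mod_cast h3
        have hd := (CharP.cast_eq_zero_iff k p 3).mp h'
        exact hp3 ((Nat.prime_dvd_prime_iff_eq Fact.out Nat.prime_three).mp hd)
      · by_cases hex : ∃ t ∈ A, t ≠ 0 ∧ t ^ 4 ≠ 1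
        · obtain ⟨t, htA, ht0, ht4⟩ := hex
          exact borZ_one_of_torus hψ hmem h1 hmul htor htA ht0 ht4
        · push Not at hex
          exact borZ_one_of_det hψ hmem h1 hup hex (hdet hp3)
  apply bor_final hψ hmem h1 h2 hz
  intro a ha
  rcases hB.cases with hc | ⟨hmul, htor, -⟩
  · exact borD_eq_zero_of_card hψ hmem h1 h2 hz hc ha
  · exact borD_eq_zero_of_torus p hψ hmem h1 h2 hz hmul htor ha

end Fermat.Agent.S56.GT
end MergeWrap_S56_TW_GT_Borel
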