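import Fermat.Agent.MU.S56.TW.GT.Fixed

section MergeWrap_S56_TW_GT_CuspsSylow -- from S56/TW/GT/CuspsSylow.lean

set_option autoImplicit false

namespace Fermat.Agent.S56.GT

open Matrix OnePoint

variable {k : Type} [Field k]

/-- Powers of an upper triangular matrix. -/
theorem cus_upper_pow (g : Matrix (Fin 2) (Fin 2) k) (hg : g 1 0 = 0) (m : ℕ) :
    (g ^ m) 1 0 = 0 ∧ (g ^ m) 0 0 = g 0 0 ^ m ∧ (g ^ m) 1 1 = g 1 1 ^ m := by
  induction m with
  | zero => simp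
  | succ m ih =>
    obtain ⟨h10, h00, h11⟩ := ih
    rw [pow_succ]
    simp only [Matrix.mul_apply, Fin.sum_univ_two, hg, h10, h00, h11]
    refine ⟨by ring, by ring, by ring⟩

/-- In characteristic `p`, an element with `x ^ (p ^ n) = 1` is `1`. -/
theorem cus_eq_one_of_pow (p : ℕ) [Fact p.Prime] [CharP k p] (x : k) (n : ℕ)
    (h : x ^ p ^ n = 1) : x = 1 := by
  have h' : (x - 1) ^ p ^ n = 0 := by
    rw [sub_pow_char_pow, h, one_pow, sub_self]
  exact sub_eq_zero.mp (pow_eq_zero_iff (pow_pos (Fact.out : p.Prime).pos n).ne' |>.mp h')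

/-- An upper triangular element of `p`-power order is upper unipotent. -/
theorem cus_eq_uMat_of_pow (p : ℕ) [Fact p.Prime] [CharP k p] (g : GL (Fin 2) k)
    (hg : (g : Matrix (Fin 2) (Fin 2) k) 1 0 = 0) (n : ℕ) (h : g ^ p ^ n = 1) :
    g = uMat ((g : Matrix (Fin 2) (Fin 2) k) 0 1) := by
  have h' : (g : Matrix (Fin 2) (Fin 2) k) ^ p ^ n = 1 := by
    rw [← Units.val_pow_eq_pow_val, h, Units.val_one]
  obtain ⟨-, h00, h11⟩ := cus_upper_pow (g : Matrix (Fin 2) (Fin 2) k) hg (p ^ n)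
  rw [h'] at h00 h11
  have e00 := cus_eq_one_of_pow p _ n h00.symm
  have e11 := cus_eq_one_of_pow p _ n h11.symm
  apply Units.ext
  ext i j
  fin_cases i <;> fin_cases j <;> simp [e00, e11, hg]

theorem cus_uMat_pow (p : ℕ) [CharP k p] (a : k) : uMat a ^ p = 1 := by
  have h : ∀ m : ℕ, uMat a ^ m = uMat (m • a) := by
    intro m
    induction m with
    | zero => simp [uMat_zero]
    | succ m ih => rw [pow_succ, ih, succ_nsmul, uMat_add]
  rw [h, nsmul_eq_mul, CharP.cast_eq_zero k p, zero_mul, uMat_zero]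

theorem cus_isPGroup_unipSub (p : ℕ) [CharP k p] (Γ : Subgroup (GL (Fin 2) k)) :
    IsPGroup p (unipSub Γ) := by
  rintro ⟨g, hg, a, rfl⟩
  refine ⟨1, ?_⟩
  apply Subtype.ext
  rw [pow_one]
  exact cus_uMat_pow p a

variable [DecidableEq k]

/-- `uMat a`, `a ≠ 0`, fixes only `∞`. -/
theorem cus_fixed_uMat {a : k} (ha : a ≠ 0) {x : OnePoint k} (h : uMat a • x = x) : x = ∞ := by
  cases x with
  | infty => rfl
  | coe y =>
    rw [uMat_smul_coe] at h
    have := OnePoint.coe_injective h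
    exact absurd (add_eq_left.mp this) ha

theorem cus_not_dvd_card_onePoint [Finite k] (p : ℕ) [Fact p.Prime] [CharP k p] :
    ¬ p ∣ Nat.card (OnePoint k) := by
  have h1 : Nat.card (OnePoint k) = Nat.card k + 1 := Finite.card_option
  have h2 : p ∣ Nat.card k := by
    have h := addOrderOf_dvd_natCard (1 : k)
    have e : addOrderOf (1 : k) = p := CharP.eq k (CharP.addOrderOf_one k) inferInstance
    rwa [e] at h
  rw [h1]
  intro h
  have := (Nat.dvd_add_right h2).mp h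
  exact (Fact.out : p.Prime).one_lt.ne' (Nat.dvd_one.mp this)

/-- The upper unipotent subgroup of `Γ` is a Sylow `p`-subgroup of `Γ`. -/
theorem cus_exists_sylow [Finite k] (p : ℕ) [Fact p.Prime] [CharP k p]
    (Γ : Subgroup (GL (Fin 2) k)) (hcusp : ∃ a : k, a ≠ 0 ∧ uMat a ∈ Γ) :
    ∃ P : Sylow p Γ, (P : Subgroup Γ) = (unipSub Γ).subgroupOf Γ := by
  obtain ⟨a, ha0, haΓ⟩ := hcusp
  have hle : unipSub Γ ≤ Γ := fun g hg => hg.1
  have hU' : IsPGroup p ((unipSub Γ).subgroupOf Γ) :=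
    (cus_isPGroup_unipSub p Γ).of_equiv (Subgroup.subgroupOfEquivOfLe hle).symm
  obtain ⟨P, hP⟩ := hU'.exists_le_sylow
  refine ⟨P, le_antisymm ?_ hP⟩
  -- `P` fixes a point
  obtain ⟨x, hx⟩ := P.isPGroup'.nonempty_fixed_point_of_prime_not_dvd_card (OnePoint k)
    (cus_not_dvd_card_onePoint p)
  have hx' : ∀ g : Γ, g ∈ (P : Subgroup Γ) → (g : GL (Fin 2) k) • x = x := by
    intro g hg
    exact hx ⟨g, hg⟩
  -- this point is `∞`
  have hu : (⟨uMat a, haΓ⟩ : Γ) ∈ (P : Subgroup Γ) := by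
    apply hP
    rw [Subgroup.mem_subgroupOf]
    exact ⟨haΓ, a, rfl⟩
  have hxinf : x = ∞ := cus_fixed_uMat ha0 (hx' _ hu)
  subst hxinf
  intro g hg
  rw [Subgroup.mem_subgroupOf]
  refine ⟨g.2, (g : GL (Fin 2) k) 0 1, ?_⟩
  have h10 : ((g : GL (Fin 2) k) : Matrix (Fin 2) (Fin 2) k) 1 0 = 0 :=
    smul_infty_eq_self_iff.mp (hx' g hg)
  obtain ⟨n, hn⟩ := P.isPGroup' ⟨g, hg⟩
  have hn' : (g : GL (Fin 2) k) ^ p ^ n = 1 := by
    have := congrArg (fun y : (P : Subgroup Γ) => ((y : Γ) : GL (Fin 2) k)) hn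
    simpa using this
  exact cus_eq_uMat_of_pow p _ h10 n hn'

end Fermat.Agent.S56.GT
end MergeWrap_S56_TW_GT_CuspsSylow

section MergeWrap_S56_TW_GT_CuspsPar -- from S56/TW/GT/CuspsPar.lean

set_option autoImplicit false

namespace Fermat.Agent.S56.GT

open Matrix OnePoint

variable {k : Type} [Field k]

theorem cus_card_unipSub (Γ : Subgroup (GL (Fin 2) k)) :
    Nat.card (unipSub Γ) = Nat.card (unipAdd Γ) := by
  symm
  apply Nat.card_congr
  refine Equiv.ofBijective (fun a : unipAdd Γ => (⟨uMat a.1, a.2, a.1, rfl⟩ : unipSub Γ)) ⟨?_, ?_⟩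
  · intro a b hab
    have h := congrArg Subtype.val hab
    exact Subtype.ext (uMat_injective h)
  · rintro ⟨g, hg, a, rfl⟩
    exact ⟨⟨a, hg⟩, rfl⟩

theorem cus_three_le_card [Finite k] (p : ℕ) [Fact p.Prime] [CharP k p] (hp2 : p ≠ 2)
    (Γ : Subgroup (GL (Fin 2) k)) (hcusp : ∃ a : k, a ≠ 0 ∧ uMat a ∈ Γ) :
    3 ≤ Nat.card (unipAdd Γ) := by
  obtain ⟨a, ha0, haΓ⟩ := hcusp
  have hx0 : (⟨a, haΓ⟩ : unipAdd Γ) ≠ 0 := by
    intro h
    exact ha0 (congrArg Subtype.val h)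
  have hpx : p • (⟨a, haΓ⟩ : unipAdd Γ) = 0 := by
    apply Subtype.ext
    show p • a = 0
    rw [nsmul_eq_mul, CharP.cast_eq_zero k p, zero_mul]
  have hord := addOrderOf_eq_prime hpx hx0
  have hdvd := addOrderOf_dvd_natCard (⟨a, haΓ⟩ : unipAdd Γ)
  rw [hord] at hdvd
  have hpos : 0 < Nat.card (unipAdd Γ) := Nat.card_pos
  have hle := Nat.le_of_dvd hpos hdvd
  have hp3 : 3 ≤ p := by
    have := (Fact.out : p.Prime).two_le
    omega
  omega

section Dec

variable [DecidableEq k]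

theorem cus_index_unipAdd [Finite k] (p : ℕ) [Fact p.Prime] [CharP k p]
    (Γ : Subgroup (GL (Fin 2) k)) (hcusp : ∃ a : k, a ≠ 0 ∧ uMat a ∈ Γ) :
    ¬ p ∣ Nat.card Γ / Nat.card (unipAdd Γ) := by
  obtain ⟨P, hP⟩ := cus_exists_sylow p Γ hcusp
  have hle : unipSub Γ ≤ Γ := fun g hg => hg.1
  have hidx := P.not_dvd_index
  have hcard : Nat.card (P : Subgroup Γ) = Nat.card (unipAdd Γ) := by
    rw [hP, ← cus_card_unipSub]
    exact Nat.card_congr (Subgroup.subgroupOfEquivOfLe hle).toEquiv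
  have hmul := Subgroup.card_mul_index (P : Subgroup Γ)
  rw [hcard] at hmul
  rw [← hmul, Nat.mul_div_cancel_left _ Nat.card_pos]
  exact hidx

/-- A unipotent element has a fixed point (any characteristic). -/
theorem cus_exists_fixed_of_isUnip (g : GL (Fin 2) k) (hg : IsUnip g) :
    ∃ x : OnePoint k, g • x = x := by
  obtain ⟨htr, hdet⟩ := hg
  rw [Matrix.trace_fin_two] at htr
  rw [Matrix.det_fin_two] at hdet
  by_cases h10 : (g : Matrix (Fin 2) (Fin 2) k) 1 0 = 0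
  · exact ⟨∞, smul_infty_eq_self_iff.mpr h10⟩
  · refine ⟨(((g : Matrix (Fin 2) (Fin 2) k) 0 0 - 1) / (g : Matrix (Fin 2) (Fin 2) k) 1 0 : k),
      ?_⟩
    rw [smul_some_eq_ite]
    have hden : (g : Matrix (Fin 2) (Fin 2) k) 1 0 *
        (((g : Matrix (Fin 2) (Fin 2) k) 0 0 - 1) / (g : Matrix (Fin 2) (Fin 2) k) 1 0) +
        (g : Matrix (Fin 2) (Fin 2) k) 1 1 = 1 := by
      rw [mul_div_cancel₀ _ h10]
      linear_combination htr
    rw [if_neg (by rw [hden]; exact one_ne_zero), hden, div_one]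
    congr 1
    field_simp
    linear_combination -hdet + (g : Matrix (Fin 2) (Fin 2) k) 0 0 * htr

theorem cus_exists_conj_cusp [Finite k] (p : ℕ) [Fact p.Prime] [CharP k p]
    (Γ : Subgroup (GL (Fin 2) k)) (hp : p ∣ Nat.card Γ) :
    ∃ (c : GL (Fin 2) k) (a : k), a ≠ 0 ∧ uMat a ∈ conjSub c Γ := by
  obtain ⟨g, hg⟩ := exists_prime_orderOf_dvd_card' p hp
  have hgp : (g : GL (Fin 2) k) ^ p = 1 := by
    have := pow_orderOf_eq_one g
    rw [hg] at this
    have := congrArg (Subtype.val) this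
    simpa using this
  have hg1 : (g : GL (Fin 2) k) ≠ 1 := by
    intro h
    have : g = 1 := Subtype.ext h
    rw [this, orderOf_one] at hg
    exact (Fact.out : p.Prime).one_lt.ne hg
  have hunip : IsUnip (g : GL (Fin 2) k) := (isUnip_iff_pow_eq_one p _).mpr hgp
  obtain ⟨x, hx⟩ := cus_exists_fixed_of_isUnip _ hunip
  obtain ⟨y, hxy⟩ : ∃ y : OnePoint k, x ≠ y := by
    by_cases h : x = ∞
    · exact ⟨((0 : k) : OnePoint k), by rw [h]; exact OnePoint.infty_ne_coe 0⟩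
    · exact ⟨∞, h⟩
  obtain ⟨c, hcx, -⟩ := exists_smul_eq_infty_zero x y hxy
  have hfix : (c * (g : GL (Fin 2) k) * c⁻¹) • (∞ : OnePoint k) = ∞ := by
    rw [mul_smul, mul_smul, ← hcx, inv_smul_smul, hx]
  obtain ⟨a, ha⟩ := eq_uMat_of_isUnip _ (isUnip_conj c _ hunip) hfix
  refine ⟨c, a, ?_, ?_⟩
  · rintro rfl
    rw [uMat_zero] at ha
    apply hg1
    have := congrArg (fun h => c⁻¹ * h * c) ha
    simpa [mul_assoc] using this
  · rw [mem_conjSub, ← ha]
    have : c⁻¹ * (c * (g : GL (Fin 2) k) * c⁻¹) * c = g := by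
      simp [mul_assoc]
    rw [this]
    exact g.2

end Dec

end Fermat.Agent.S56.GT
end MergeWrap_S56_TW_GT_CuspsPar

section MergeWrap_S56_TW_GT_CuspsDecomp -- from S56/TW/GT/CuspsDecomp.lean

set_option autoImplicit false

namespace Fermat.Agent.S56.GT

open Matrix OnePoint

variable {k : Type} [Field k]

/-- The scalar matrix `λ`. -/
noncomputable def cusScal (l : kˣ) : GL (Fin 2) k := Matrix.GeneralLinearGroup.scalar (Fin 2) l

theorem cus_coe_scal (l : kˣ) :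
    (cusScal l : Matrix (Fin 2) (Fin 2) k) = !![(l : k), 0; 0, (l : k)] := by
  unfold cusScal
  rw [Matrix.GeneralLinearGroup.coe_scalar]
  ext i j
  fin_cases i <;> fin_cases j <;> simp

theorem cus_scal_mem_center (l : kˣ) : cusScal l ∈ Subgroup.center (GL (Fin 2) k) := by
  rw [Matrix.GeneralLinearGroup.center_eq_range_scalar]
  exact ⟨l, rfl⟩

theorem cus_scal_pow (l : kˣ) (n : ℕ) : cusScal l ^ n = cusScal (l ^ n) := by
  unfold cusScal
  rw [map_pow]

theorem cus_scal_one : cusScal (1 : kˣ) = 1 := by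
  unfold cusScal
  rw [map_one]

/-- The algebraic part of the decomposition of a parabolic element. -/
theorem cus_par_decomp_alg (h2 : (2 : k) ≠ 0) (g : GL (Fin 2) k) (hpar : g.IsParabolic) :
    ∃ (l : kˣ) (u : GL (Fin 2) k), IsUnip u ∧ u ≠ 1 ∧ g = cusScal l * u := by
  obtain ⟨hns, hdisc⟩ := hpar
  rw [Matrix.discr_fin_two] at hdisc
  have hdet0 : (g : Matrix (Fin 2) (Fin 2) k).det ≠ 0 := g.det_ne_zero
  have h4 : (4 : k) ≠ 0 := by
    have : (4 : k) = 2 * 2 := by norm_num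
    rw [this]
    exact mul_ne_zero h2 h2
  have htr0 : (g : Matrix (Fin 2) (Fin 2) k).trace ≠ 0 := by
    intro h
    rw [h] at hdisc
    have : 4 * (g : Matrix (Fin 2) (Fin 2) k).det = 0 := by linear_combination -hdisc
    rcases mul_eq_zero.mp this with h' | h'
    · exact h4 h'
    · exact hdet0 h'
  have hl0 : (g : Matrix (Fin 2) (Fin 2) k).trace / 2 ≠ 0 := div_ne_zero htr0 h2
  set l : kˣ := Units.mk0 _ hl0 with hl
  have hlv : (l : k) = (g : Matrix (Fin 2) (Fin 2) k).trace / 2 := rfl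
  have hcoe : (((cusScal l)⁻¹ * g : GL (Fin 2) k) : Matrix (Fin 2) (Fin 2) k) =
      (l : k)⁻¹ • (g : Matrix (Fin 2) (Fin 2) k) := by
    have : (cusScal l)⁻¹ = cusScal l⁻¹ := by
      unfold cusScal
      rw [map_inv]
    rw [this, Units.val_mul, cus_coe_scal, Units.val_inv_eq_inv_val]
    ext i j
    fin_cases i <;> fin_cases j <;> simp [Matrix.mul_apply, Fin.sum_univ_two]
  refine ⟨l, (cusScal l)⁻¹ * g, ⟨?_, ?_⟩, ?_, by rw [mul_inv_cancel_left]⟩
  · rw [hcoe, Matrix.trace_smul, smul_eq_mul, hlv]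
    field_simp
  · rw [hcoe, Matrix.det_smul, Fintype.card_fin, hlv]
    field_simp
    linear_combination -hdisc
  · intro h
    apply hns
    have hg : g = cusScal l := by
      have := congrArg (fun x => cusScal l * x) h
      simpa using this
    refine ⟨(l : k), ?_⟩
    rw [hg]
    unfold cusScal
    rw [Matrix.GeneralLinearGroup.coe_scalar]

variable [DecidableEq k]

theorem cus_par_decomp [Finite k] (p : ℕ) [Fact p.Prime] [CharP k p] (hp2 : p ≠ 2)
    (Γ : Subgroup (GL (Fin 2) k)) (g : GL (Fin 2) k) (hg : g ∈ Γ) (hpar : g.IsParabolic) :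
    ∃ z u : GL (Fin 2) k, z ∈ scal Γ ∧ u ∈ Γ ∧ IsUnip u ∧ u ≠ 1 ∧ g = z * u := by
  have h2 : (2 : k) ≠ 0 := by
    intro h
    have h' : ((2 : ℕ) : k) = 0 := by exact_mod_cast h
    have hd := (CharP.cast_eq_zero_iff k p 2).mp h'
    exact hp2 ((Nat.prime_dvd_prime_iff_eq Fact.out Nat.prime_two).mp hd)
  obtain ⟨l, u, hu, hu1, hgu⟩ := cus_par_decomp_alg h2 g hpar
  have hup : u ^ p = 1 := (isUnip_iff_pow_eq_one p u).mp hu
  have hord : orderOf u = p := orderOf_eq_prime hup hu1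
  -- the order of `kˣ` is prime to `p`
  have hcop : Nat.Coprime (Nat.card kˣ) p := by
    rw [Nat.coprime_comm, (Fact.out : p.Prime).coprime_iff_not_dvd, Nat.card_units]
    intro h
    have h2' : p ∣ Nat.card k := by
      have h := addOrderOf_dvd_natCard (1 : k)
      have e : addOrderOf (1 : k) = p := CharP.eq k (CharP.addOrderOf_one k) inferInstance
      rwa [e] at h
    have hpos : 0 < Nat.card k := Nat.card_pos
    have : p ∣ Nat.card k - (Nat.card k - 1) := Nat.dvd_sub h2' h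
    have h1 : Nat.card k - (Nat.card k - 1) = 1 := by omega
    rw [h1] at this
    exact (Fact.out : p.Prime).one_lt.ne' (Nat.dvd_one.mp this)
  obtain ⟨j, -, hj⟩ := Nat.exists_mul_mod_eq_one_of_coprime hcop (Fact.out : p.Prime).one_lt
  have hcomm : Commute (cusScal l) u :=
    (Subgroup.mem_center_iff.mp (cus_scal_mem_center l) u).symm
  have hgN : g ^ Nat.card kˣ = u ^ Nat.card kˣ := by
    rw [hgu, hcomm.mul_pow, cus_scal_pow, pow_card_eq_one', cus_scal_one, one_mul]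
  have huΓ : u ∈ Γ := by
    have h1 : (g ^ Nat.card kˣ) ^ j ∈ Γ := Γ.pow_mem (Γ.pow_mem hg _) _
    rw [hgN, ← pow_mul, ← pow_mod_orderOf, hord, hj, pow_one] at h1
    exact h1
  have hzΓ : cusScal l ∈ Γ := by
    have : cusScal l = g * u⁻¹ := by rw [hgu, mul_inv_cancel_right]
    rw [this]
    exact Γ.mul_mem hg (Γ.inv_mem huΓ)
  exact ⟨cusScal l, u, ⟨hzΓ, cus_scal_mem_center l⟩, huΓ, hu, hu1, hgu⟩

theorem cus_par_borel_mem [Finite k] (p : ℕ) [Fact p.Prime] [CharP k p] (hp2 : p ≠ 2)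
    (Γ : Subgroup (GL (Fin 2) k)) (g : GL (Fin 2) k) (hg : g ∈ Γ) (hpar : g.IsParabolic)
    (h : g • (∞ : OnePoint k) = ∞) : g ∈ scal Γ ⊔ unipSub Γ := by
  obtain ⟨z, u, hz, hu, hunip, -, rfl⟩ := cus_par_decomp p hp2 Γ g hg hpar
  apply Subgroup.mul_mem_sup hz
  rw [mul_smul] at h
  have hz' := smul_eq_self_of_mem_center z hz.2 (u • (∞ : OnePoint k))
  rw [hz'] at h
  obtain ⟨a, rfl⟩ := eq_uMat_of_isUnip u hunip h
  exact ⟨hu, a, rfl⟩

theorem cus_par_fixed_mem_cuspSet [Finite k] (p : ℕ) [Fact p.Prime] [CharP k p] (hp2 : p ≠ 2)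
    (Γ : Subgroup (GL (Fin 2) k)) (hcusp : ∃ a : k, a ≠ 0 ∧ uMat a ∈ Γ)
    (g : GL (Fin 2) k) (hg : g ∈ Γ) (hpar : g.IsParabolic) (x : OnePoint k) (hx : g • x = x) :
    x ∈ cuspSet Γ := by
  obtain ⟨z, u, hz, hu, hunip, hu1, rfl⟩ := cus_par_decomp p hp2 Γ g hg hpar
  rw [mul_smul, smul_eq_self_of_mem_center z hz.2] at hx
  have hup : u ^ p = 1 := (isUnip_iff_pow_eq_one p u).mp hunip
  -- the subgroup generated by `u` lies in a Sylow subgroup
  have hup' : (⟨u, hu⟩ : Γ) ^ p = 1 := Subtype.ext (by simpa using hup)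
  have hu1' : (⟨u, hu⟩ : Γ) ≠ 1 := fun h => hu1 (congrArg Subtype.val h)
  have hpg : IsPGroup p (Subgroup.zpowers (⟨u, hu⟩ : Γ)) := by
    apply IsPGroup.of_card (n := 1)
    rw [Nat.card_zpowers, pow_one]
    exact orderOf_eq_prime hup' hu1'
  obtain ⟨Q, hQ⟩ := hpg.exists_le_sylow
  obtain ⟨P, hP⟩ := cus_exists_sylow p Γ hcusp
  obtain ⟨γ, hγ⟩ := MulAction.exists_smul_eq Γ P Q
  have huQ : (⟨u, hu⟩ : Γ) ∈ (Q : Subgroup Γ) := hQ (Subgroup.mem_zpowers _)
  rw [← hγ, Sylow.coe_subgroup_smul, Subgroup.mem_pointwise_smul_iff_inv_smul_mem, MulAut.smul_def,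
    MulAut.conj_inv_apply, hP, Subgroup.mem_subgroupOf] at huQ
  obtain ⟨-, a, ha⟩ := huQ
  have ha' : (γ : GL (Fin 2) k)⁻¹ * u * (γ : GL (Fin 2) k) = uMat a := by
    simpa using ha
  have ha0 : a ≠ 0 := by
    rintro rfl
    rw [uMat_zero] at ha'
    apply hu1
    have := congrArg (fun h => (γ : GL (Fin 2) k) * h * (γ : GL (Fin 2) k)⁻¹) ha'
    simpa [mul_assoc] using this
  have hfix : uMat a • ((γ : GL (Fin 2) k)⁻¹ • x) = (γ : GL (Fin 2) k)⁻¹ • x := by
    rw [← ha', mul_smul, mul_smul, smul_inv_smul, hx]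
  have hinf := cus_fixed_uMat ha0 hfix
  refine ⟨γ, γ.2, ?_⟩
  rw [← hinf, smul_inv_smul]

end Fermat.Agent.S56.GT
end MergeWrap_S56_TW_GT_CuspsDecomp
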